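/-
Programme K (S52), glue brick (helper61): RATIONAL POLYNOMIALS for the Klein pencil.

The descent step (K3) shows that the values `H(v₀ + s w₀)`, `T(v₀ + s w₀)` are rational for every
rational `s`; the model step (K4a, `AdicCont`) and the irreducibility step (K5, `Polynomial ℚ`)
need honest polynomials `C4, C6 ∈ ℚ[t]`.  This file bridges the two:

* `exists_map_eq_of_forall_eval_mem_range` : a polynomial over an extension field `L` of a field
  `K` of characteristic zero all of whose values at elements of `K` lie in `K` has coefficients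
  in `K` (interpolation);
* `HfR`, `TfR`, `ffR` : Klein's forms over an arbitrary commutative ring (definitionally the
  forms `Forms.Hf`, `Forms.Tf`, `Forms.ff` of helper11 over a field), compatibility with ring
  homomorphisms;
* `pencilH`, `pencilT`, `pencilf` : the one-variable polynomials `s ↦ H(v + s w)` etc.;
* `exists_ratPencil` : the bridge for the forms `Hf`, `Tf`;
* `exists_C4_C6` : the same, packaged as `C4 = -H`, `C6 = T` with `C4(0) = c₄`, `C6(0) = c₆`.
-/
import Mathlib
import Fermat.Agent.S52K2.Forms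

set_option autoImplicit false

namespace Fermat.Agent.S52K61.RatPencil

open Polynomial

section Generic

variable {K L : Type*} [Field K] [Field L] [Algebra K L] [CharZero K]

/-- A polynomial over `L` whose values at all elements of the subfield `K` (characteristic zero)
lie in `K` has its coefficients in `K`. -/
theorem exists_map_eq_of_forall_eval_mem_range (P : L[X])
    (hP : ∀ s : K, ∃ r : K, P.eval (algebraMap K L s) = algebraMap K L r) :
    ∃ p : K[X], p.map (algebraMap K L) = P := by
  classical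
  set n : ℕ := P.natDegree + 1 with hn
  choose r hr using hP
  -- interpolation nodes `0, 1, …, n - 1`
  set v : ℕ → K := fun i => (i : K) with hv
  have hvinj : Set.InjOn v (Finset.range n : Set ℕ) := fun a _ b _ h => Nat.cast_injective h
  set p : K[X] := Lagrange.interpolate (Finset.range n) v (fun i => r (v i)) with hp
  refine ⟨p, ?_⟩
  have hfinj : Function.Injective (algebraMap K L) := (algebraMap K L).injective
  set s : Finset L := (Finset.range n).image (fun i => algebraMap K L (v i)) with hs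
  have hcard : s.card = n := by
    rw [hs, Finset.card_image_of_injOn, Finset.card_range]
    intro a ha b hb h
    exact hvinj ha hb (hfinj h)
  have hdegp : (p.map (algebraMap K L)).degree < s.card := by
    rw [hcard, Polynomial.degree_map]
    have := Lagrange.degree_interpolate_lt (r := fun i => r (v i)) (s := Finset.range n) hvinj
    rwa [Finset.card_range] at this
  have hdegP : P.degree < s.card := by
    rw [hcard, hn]
    exact lt_of_le_of_lt Polynomial.degree_le_natDegree (by exact_mod_cast Nat.lt_succ_self _)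
  refine Polynomial.eq_of_degrees_lt_of_eval_finset_eq s hdegp hdegP ?_
  intro x hx
  rw [hs, Finset.mem_image] at hx
  obtain ⟨i, hi, rfl⟩ := hx
  rw [Polynomial.eval_map, Polynomial.eval₂_at_apply, hr (v i), hp,
    Lagrange.eval_interpolate_at_node (fun i => r (v i)) hvinj hi]

end Generic

section Forms

variable {R S : Type*} [CommRing R] [CommRing S]

/-- Klein's form `f` over a commutative ring. -/
def ffR (z1 z2 : R) : R := z1 * z2 * (z1 ^ 10 + 11 * z1 ^ 5 * z2 ^ 5 - z2 ^ 10)

/-- Klein's form `H` over a commutative ring. -/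
def HfR (z1 z2 : R) : R :=
  -(z1 ^ 20 + z2 ^ 20) + 228 * (z1 ^ 15 * z2 ^ 5 - z1 ^ 5 * z2 ^ 15) - 494 * z1 ^ 10 * z2 ^ 10

/-- Klein's form `T` over a commutative ring. -/
def TfR (z1 z2 : R) : R :=
  (z1 ^ 30 + z2 ^ 30) + 522 * (z1 ^ 25 * z2 ^ 5 - z1 ^ 5 * z2 ^ 25)
    - 10005 * (z1 ^ 20 * z2 ^ 10 + z1 ^ 10 * z2 ^ 20)

theorem map_ffR (φ : R →+* S) (z1 z2 : R) : φ (ffR z1 z2) = ffR (φ z1) (φ z2) := by
  simp only [ffR, map_mul, map_add, map_sub, map_pow, map_ofNat]

theorem map_HfR (φ : R →+* S) (z1 z2 : R) : φ (HfR z1 z2) = HfR (φ z1) (φ z2) := by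
  simp only [HfR, map_mul, map_add, map_sub, map_neg, map_pow, map_ofNat]

theorem map_TfR (φ : R →+* S) (z1 z2 : R) : φ (TfR z1 z2) = TfR (φ z1) (φ z2) := by
  simp only [TfR, map_mul, map_add, map_sub, map_pow, map_ofNat]

theorem ffR_eq {k : Type*} [Field k] (z1 z2 : k) : ffR z1 z2 = Fermat.Agent.S52K2.Forms.ff z1 z2 :=
  rfl

theorem HfR_eq {k : Type*} [Field k] (z1 z2 : k) : HfR z1 z2 = Fermat.Agent.S52K2.Forms.Hf z1 z2 :=
  rfl

theorem TfR_eq {k : Type*} [Field k] (z1 z2 : k) : TfR z1 z2 = Fermat.Agent.S52K2.Forms.Tf z1 z2 :=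
  rfl

/-- The polynomial `s ↦ f(z + s w)`. -/
noncomputable def pencilf (z1 z2 w1 w2 : R) : R[X] := ffR (C z1 + X * C w1) (C z2 + X * C w2)

/-- The polynomial `s ↦ H(z + s w)`. -/
noncomputable def pencilH (z1 z2 w1 w2 : R) : R[X] := HfR (C z1 + X * C w1) (C z2 + X * C w2)

/-- The polynomial `s ↦ T(z + s w)`. -/
noncomputable def pencilT (z1 z2 w1 w2 : R) : R[X] := TfR (C z1 + X * C w1) (C z2 + X * C w2)

theorem eval_pencilf (z1 z2 w1 w2 s : R) :
    (pencilf z1 z2 w1 w2).eval s = ffR (z1 + s * w1) (z2 + s * w2) := by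
  have h := map_ffR (Polynomial.evalRingHom s) (C z1 + X * C w1) (C z2 + X * C w2)
  have e1 : Polynomial.evalRingHom s (C z1 + X * C w1) = z1 + s * w1 := by
    simp only [coe_evalRingHom, eval_add, eval_mul, eval_C, eval_X]
  have e2 : Polynomial.evalRingHom s (C z2 + X * C w2) = z2 + s * w2 := by
    simp only [coe_evalRingHom, eval_add, eval_mul, eval_C, eval_X]
  rw [e1, e2] at h
  exact h

theorem eval_pencilH (z1 z2 w1 w2 s : R) :
    (pencilH z1 z2 w1 w2).eval s = HfR (z1 + s * w1) (z2 + s * w2) := by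
  have h := map_HfR (Polynomial.evalRingHom s) (C z1 + X * C w1) (C z2 + X * C w2)
  have e1 : Polynomial.evalRingHom s (C z1 + X * C w1) = z1 + s * w1 := by
    simp only [coe_evalRingHom, eval_add, eval_mul, eval_C, eval_X]
  have e2 : Polynomial.evalRingHom s (C z2 + X * C w2) = z2 + s * w2 := by
    simp only [coe_evalRingHom, eval_add, eval_mul, eval_C, eval_X]
  rw [e1, e2] at h
  exact h

theorem eval_pencilT (z1 z2 w1 w2 s : R) :
    (pencilT z1 z2 w1 w2).eval s = TfR (z1 + s * w1) (z2 + s * w2) := by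
  have h := map_TfR (Polynomial.evalRingHom s) (C z1 + X * C w1) (C z2 + X * C w2)
  have e1 : Polynomial.evalRingHom s (C z1 + X * C w1) = z1 + s * w1 := by
    simp only [coe_evalRingHom, eval_add, eval_mul, eval_C, eval_X]
  have e2 : Polynomial.evalRingHom s (C z2 + X * C w2) = z2 + s * w2 := by
    simp only [coe_evalRingHom, eval_add, eval_mul, eval_C, eval_X]
  rw [e1, e2] at h
  exact h

end Forms

section Bridge

variable {K L : Type*} [Field K] [Field L] [Algebra K L] [CharZero K]

open Fermat.Agent.S52K2.Forms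

/-- **Rational pencil.**  If `H(z + s w)` and `T(z + s w)` lie in `K` for every `s ∈ K`, there
are polynomials `PH PT ∈ K[t]` with `PH(s) = H(z + s w)` and `PT(s) = T(z + s w)` for ALL
`s ∈ L`. -/
theorem exists_ratPencil (z1 z2 w1 w2 : L)
    (hH : ∀ s : K, ∃ r : K,
      Hf (z1 + algebraMap K L s * w1) (z2 + algebraMap K L s * w2) = algebraMap K L r)
    (hT : ∀ s : K, ∃ r : K,
      Tf (z1 + algebraMap K L s * w1) (z2 + algebraMap K L s * w2) = algebraMap K L r) :
    ∃ PH PT : K[X],
      (∀ s : L, aeval s PH = Hf (z1 + s * w1) (z2 + s * w2)) ∧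
      (∀ s : L, aeval s PT = Tf (z1 + s * w1) (z2 + s * w2)) ∧
      (∀ s : K, algebraMap K L (PH.eval s) =
        Hf (z1 + algebraMap K L s * w1) (z2 + algebraMap K L s * w2)) ∧
      (∀ s : K, algebraMap K L (PT.eval s) =
        Tf (z1 + algebraMap K L s * w1) (z2 + algebraMap K L s * w2)) := by
  obtain ⟨PH, hPH⟩ := exists_map_eq_of_forall_eval_mem_range (K := K) (pencilH z1 z2 w1 w2)
    (fun s => by
      obtain ⟨r, hr⟩ := hH s
      exact ⟨r, by rw [eval_pencilH, HfR_eq, hr]⟩)
  obtain ⟨PT, hPT⟩ := exists_map_eq_of_forall_eval_mem_range (K := K) (pencilT z1 z2 w1 w2)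
    (fun s => by
      obtain ⟨r, hr⟩ := hT s
      exact ⟨r, by rw [eval_pencilT, TfR_eq, hr]⟩)
  have h1 : ∀ s : L, aeval s PH = Hf (z1 + s * w1) (z2 + s * w2) := fun s => by
    rw [← Polynomial.eval_map_algebraMap, hPH, eval_pencilH, HfR_eq]
  have h2 : ∀ s : L, aeval s PT = Tf (z1 + s * w1) (z2 + s * w2) := fun s => by
    rw [← Polynomial.eval_map_algebraMap, hPT, eval_pencilT, TfR_eq]
  refine ⟨PH, PT, h1, h2, fun s => ?_, fun s => ?_⟩
  · rw [← h1, Polynomial.aeval_algebraMap_apply_eq_algebraMap_eval]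
  · rw [← h2, Polynomial.aeval_algebraMap_apply_eq_algebraMap_eval]

/-- Packaged form in the sign convention `c₄ = -H`, `c₆ = T` (curve `y² = x³ + 27 H x - 54 T`,
i.e. `y² = x³ - 27 c₄ x - 54 c₆`): polynomials `C4, C6 ∈ K[t]` with `C4(0) = c₄`, `C6(0) = c₆`,
`C4(s) = -H(z + s w)`, `C6(s) = T(z + s w)` for all `s ∈ L`. -/
theorem exists_C4_C6 (z1 z2 w1 w2 : L) (c4 c6 : K)
    (h4 : Hf z1 z2 = algebraMap K L (-c4)) (h6 : Tf z1 z2 = algebraMap K L c6)
    (hH : ∀ s : K, ∃ r : K,
      Hf (z1 + algebraMap K L s * w1) (z2 + algebraMap K L s * w2) = algebraMap K L r)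
    (hT : ∀ s : K, ∃ r : K,
      Tf (z1 + algebraMap K L s * w1) (z2 + algebraMap K L s * w2) = algebraMap K L r) :
    ∃ C4 C6 : K[X], C4.eval 0 = c4 ∧ C6.eval 0 = c6 ∧
      (∀ s : L, aeval s C4 = -Hf (z1 + s * w1) (z2 + s * w2)) ∧
      (∀ s : L, aeval s C6 = Tf (z1 + s * w1) (z2 + s * w2)) ∧
      (∀ s : K, algebraMap K L (C4.eval s) =
        -Hf (z1 + algebraMap K L s * w1) (z2 + algebraMap K L s * w2)) ∧
      (∀ s : K, algebraMap K L (C6.eval s) =
        Tf (z1 + algebraMap K L s * w1) (z2 + algebraMap K L s * w2)) := by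
  obtain ⟨PH, PT, h1, h2, h3, h4'⟩ := exists_ratPencil (K := K) z1 z2 w1 w2 hH hT
  have hinj : Function.Injective (algebraMap K L) := (algebraMap K L).injective
  refine ⟨-PH, PT, ?_, ?_, fun s => ?_, h2, fun s => ?_, h4'⟩
  · apply hinj
    have := h3 0
    rw [map_zero, zero_mul, zero_mul, add_zero, add_zero, h4] at this
    rw [Polynomial.eval_neg, map_neg, this, map_neg, neg_neg]
  · apply hinj
    have := h4' 0
    rw [map_zero, zero_mul, zero_mul, add_zero, add_zero, h6] at this
    exact this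
  · rw [map_neg, h1]
  · rw [Polynomial.eval_neg, map_neg, h3]

end Bridge

end Fermat.Agent.S52K61.RatPencil
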